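import Mathlib
import Fermat.Prelude.Def_FLTPrelim_FreyPackage
import Fermat.Prelude.Def_FLTPrelim_GaloisRep
import Fermat.Agent.MUL.Orig.S05.H5.FreyFacts
import Fermat.Agent.MUL.Lib.Torsion.Card
import Fermat.Agent.MUL.F3.EigenPadic.Closed

section MergeWrap_S13_CountT -- from S13/CountT.lean

set_option autoImplicit false

namespace Fermat.Agent.S13Count

open WeierstrassCurve WeierstrassCurve.Affine

section General

variable {K : Type*} [Field K] [DecidableEq K] [IsAlgClosed K] [CharZero K]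

/-- `#E[n] = n ^ 2` over an algebraically closed field of characteristic zero, for `n ≥ 1`. -/
theorem card_torsion_of_Δ_ne_zero (E : WeierstrassCurve K) (hΔ : E.Δ ≠ 0) {n : ℕ} (hn : 1 ≤ n) :
    Nat.card (Submodule.torsionBy ℤ E.toAffine.Point n) = n ^ 2 :=
  Fermat.Agent.Torsion.card_torsionBy (W := E) hΔ hn

end General

/-- `#E[n] = n ^ 2` for the base change to `AlgebraicClosure ℚ` of a curve over `ℚ`
(for any decidability instance). -/
theorem card_torsion_baseChange [DecidableEq (AlgebraicClosure ℚ)] (E : WeierstrassCurve ℚ)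
    (hΔ : (E⁄(AlgebraicClosure ℚ)).Δ ≠ 0) {n : ℕ} (hn : 1 ≤ n) :
    Nat.card (Submodule.torsionBy ℤ (E⁄(AlgebraicClosure ℚ)).Point n) = n ^ 2 :=
  Fermat.Agent.Torsion.card_torsionBy (W := (E⁄(AlgebraicClosure ℚ))) hΔ hn

/-- `#E[p] = p ^ 2` for the Frey curve. -/
theorem frey_card_torsion (P : FreyPackage) :
    Nat.card (Submodule.torsionBy ℤ (P.freyCurve⁄(AlgebraicClosure ℚ)).Point P.p) = P.p ^ 2 :=
  card_torsion_baseChange P.freyCurve (S05H5.frey_Δ_ne_zero_K P) P.pp.one_lt.le

/-- `E[p]` is finite for the Frey curve. -/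
theorem frey_torsion_finite (P : FreyPackage) :
    Finite (Submodule.torsionBy ℤ (P.freyCurve⁄(AlgebraicClosure ℚ)).Point P.p) :=
  Fermat.Agent.Torsion.finite_torsionBy (W := (P.freyCurve⁄(AlgebraicClosure ℚ)))
    (S05H5.frey_Δ_ne_zero_K P) P.pp.one_lt.le

/-- `E[p]` is nontrivial for the Frey curve. -/
theorem frey_torsion_nontrivial (P : FreyPackage) :
    Nontrivial (Submodule.torsionBy ℤ (P.freyCurve⁄(AlgebraicClosure ℚ)).Point P.p) :=
  Fermat.Agent.Torsion.nontrivial_torsionBy (W := (P.freyCurve⁄(AlgebraicClosure ℚ)))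
    (S05H5.frey_Δ_ne_zero_K P) P.pp.two_le

end Fermat.Agent.S13Count
end MergeWrap_S13_CountT
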