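import Mathlib
import Fermat.Prelude.Def_FLTPrelim_Ramification
import Fermat.Prelude.Def_FLTPrelim_FreyPackage
import Fermat.Prelude.Def_FLTPrelim_GaloisRep
import Fermat.Agent.MUL.S05.H5.Assembly
import Fermat.Agent.MUL.Orig.S05.H75.FreyData
import Fermat.Agent.MUL.Orig.S13.AtPCore
import Fermat.Agent.MUL.Orig.S13.LpBudget
import Fermat.Agent.MUL.Orig.Lib.Torsion.LadderDegree
import Fermat.Agent.MUL.Orig.S05.H75.KerRed

section MergeWrap_S13_NpC -- from S13/NpC.lean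

set_option autoImplicit false

namespace Fermat.Agent.S13NpC

open WeierstrassCurve WeierstrassCurve.Affine WeierstrassCurve.Affine.Point S05H65 S05H75 S05H5

section GaloisCore

variable {K : Type*} [Field K] [DecidableEq K] {Γ₀ : Type*} [LinearOrderedCommGroupWithZero Γ₀]
variable {R S : Type*} [CommRing R] [CommRing S] [Algebra R S] [Algebra R K] [Algebra S K]
  [IsScalarTower R S K]

/-- Good reduction: `σ X - X` lies in the kernel of reduction, for EVERY point `X`. -/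
theorem inG1_map_sub_of_good_reduction (v : Valuation K Γ₀) (W' : Affine R)
    (ha₁ : v (W'⁄K).a₁ ≤ 1) (ha₂ : v (W'⁄K).a₂ ≤ 1) (ha₃ : v (W'⁄K).a₃ ≤ 1)
    (ha₄ : v (W'⁄K).a₄ ≤ 1) (ha₆ : v (W'⁄K).a₆ ≤ 1)
    (hΔ : ¬ v (W'⁄K).Δ < 1)
    (σ : K →ₐ[S] K) (hσ : ∀ a : K, v a ≤ 1 → v (σ a - a) < 1)
    (hσ' : ∀ a : K, 1 < v a → 1 < v (σ a))
    (X : (W'⁄K).Point) : InG1 v (Point.map σ X - X) := by
  obtain ⟨hb₂, hb₄, hb₆, hb₈⟩ := v_b_le_one v (W'⁄K) ha₁ ha₂ ha₃ ha₄ ha₆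
  rcases X with _ | ⟨x, y, h⟩
  · left
    exact sub_self _
  · have hmap : Point.map σ (Point.some x y h) = Point.some (σ x) (σ y)
        ((W'.baseChange_nonsingular σ.injective x y).mpr h) := Point.map_some σ h
    rw [hmap]
    by_cases hx : v x ≤ 1
    · have hy : v y ≤ 1 := v_y_le_one v (W'⁄K) ha₁ ha₂ ha₃ ha₄ ha₆ h.1 hx
      have hns : ¬ (v ((W'⁄K).a₁ * y - (3 * x ^ 2 + 2 * (W'⁄K).a₂ * x + (W'⁄K).a₄)) < 1 ∧
          v (2 * y + (W'⁄K).a₁ * x + (W'⁄K).a₃) < 1) := by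
        rintro ⟨h1, h2⟩
        exact hΔ (v_Δ_lt_one_of_singular v (W'⁄K) ha₁ ha₂ h.1 hx h1 h2)
      have hσx : v (x - σ x) < 1 := by rw [Valuation.map_sub_swap]; exact hσ x hx
      have hσy : v (y - σ y) < 1 := by rw [Valuation.map_sub_swap]; exact hσ y hy
      have hσx1 : v (σ x) ≤ 1 := by
        have : σ x = (σ x - x) + x := by ring
        rw [this]; exact vle_add v (le_of_lt (hσ x hx)) hx
      have hB : InG1 v (Point.some x y h - Point.some (σ x) (σ y)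
          ((W'.baseChange_nonsingular σ.injective x y).mpr h)) :=
        sub_eq_zero_or_one_lt_v_px v (W'⁄K) ha₁ ha₂ h
          ((W'.baseChange_nonsingular σ.injective x y).mpr h) hx hσx1 hσx hσy hns
      have := inG1_neg v hB
      rwa [neg_sub] at this
    · rw [not_le] at hx
      have h1 : InG1 v (Point.some x y h : (W'⁄K).Point) := Or.inr hx
      have h2 : InG1 v (Point.some (σ x) (σ y)
          ((W'.baseChange_nonsingular σ.injective x y).mpr h) : (W'⁄K).Point) :=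
        Or.inr (hσ' x hx)
      exact inG1_sub v hb₂ hb₄ hb₆ hb₈ h2 h1

/-- Nodal core without `v n = 1`: given the component analysis, `σ X - X ∈ G₁`. -/
theorem inG1_map_sub_of_nodal (v : Valuation K Γ₀) (W' : Affine R)
    (ha₁ : v (W'⁄K).a₁ ≤ 1) (ha₂ : v (W'⁄K).a₂ ≤ 1) (ha₃ : v (W'⁄K).a₃ ≤ 1)
    (ha₄ : v (W'⁄K).a₄ ≤ 1) (ha₆ : v (W'⁄K).a₆ ≤ 1)
    (s d b : K) (hb₂ : (W'⁄K).b₂ = b - 3 * s)
    (hb₄ : 8 * (W'⁄K).b₄ = 3 * s ^ 2 - 2 * s * b - d ^ 2)
    (hb₆ : 16 * (W'⁄K).b₆ = (s ^ 2 - d ^ 2) * (b - s))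
    (hs : v s ≤ 1) (hd : v d < 1)
    (σ : K →ₐ[S] K) (hσ : ∀ a : K, v a ≤ 1 → v (σ a - a) < 1)
    (hσ' : ∀ a : K, 1 < v a → 1 < v (σ a))
    (X : (W'⁄K).Point)
    (hC : v (4 * px X - s) < 1 → X ≠ 0 →
      ∃ Z : (W'⁄K).Point, Point.map σ Z = Z ∧ (G0' v s (X - Z) ∨ G0' v s (X + Z))) :
    InG1 v (Point.map σ X - X) := by
  have hB' := inG1_map_sub_of_G0' v W' ha₁ ha₂ ha₃ ha₄ ha₆ s d b hb₂ hb₄ hb₆ hs hd σ hσ hσ'
  by_cases hX0 : X = 0
  · left; rw [hX0, _root_.map_zero, sub_zero]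
  by_cases hξ : v (4 * px X - s) < 1
  · obtain ⟨Z, hZ, hw | hw⟩ := hC hξ hX0
    · have := hB' (X - Z) hw
      rwa [map_sub, hZ, sub_sub_sub_cancel_right] at this
    · have := hB' (X + Z) hw
      rwa [map_add, hZ, add_sub_add_right_eq_sub] at this
  · exact hB' X (Or.inr (not_lt.mp hξ))

end GaloisCore

section Assembly

variable {K : Type*} [Field K] [DecidableEq K] [Algebra ℚ K] [IsAlgClosed K] [CharZero K]

/-- (Np)(c), abstract form: under `GoodOrNodal` (no hypothesis on `v n`), an automorphism acting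
trivially modulo the maximal ideal moves every `n`-torsion point inside `G₁`. -/
theorem inG1_map_sub_of_goodOrNodal {Γ₀ : Type*} [LinearOrderedCommGroupWithZero Γ₀]
    (v : Valuation K Γ₀) (E : WeierstrassCurve ℚ)
    (ha₁ : v (E⁄K).a₁ ≤ 1) (ha₂ : v (E⁄K).a₂ ≤ 1) (ha₃ : v (E⁄K).a₃ ≤ 1)
    (ha₄ : v (E⁄K).a₄ ≤ 1) (ha₆ : v (E⁄K).a₆ ≤ 1) (hΔ : (E⁄K).Δ ≠ 0)
    {n : ℕ} (hodd : Odd n) (h2 : v (2 : K) = 1)
    (hE : GoodOrNodal v E n)
    (σ : K →ₐ[ℚ] K) (hσ : ∀ a : K, v a ≤ 1 → v (σ a - a) < 1)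
    (hσ' : ∀ a : K, 1 < v a → 1 < v (σ a))
    (X : (E⁄K).Point) (hX : n • X = 0) : InG1 v (Point.map σ X - X) := by
  rcases hE with hgood | ⟨s, d, b, e, hb₂, hb₄, hb₆, hvb, hvs, hvd, hve, he0⟩
  · exact inG1_map_sub_of_good_reduction v E ha₁ ha₂ ha₃ ha₄ ha₆ hgood σ hσ hσ' X
  · have he0' : algebraMap ℚ K e ≠ 0 := by
      rw [Ne, map_eq_zero]; exact he0
    have hn0 : 0 < n := hodd.pos
    have hvd1 : v (algebraMap ℚ K d) < 1 := by
      rw [hvd]
      exact pow_lt_one₀ zero_le hve hn0.ne'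
    refine inG1_map_sub_of_nodal v E ha₁ ha₂ ha₃ ha₄ ha₆ (algebraMap ℚ K s) (algebraMap ℚ K d)
      (algebraMap ℚ K b) hb₂ hb₄ hb₆ hvs hvd1 σ hσ hσ' X ?_
    intro hξ hX0
    obtain ⟨M, hM0, hMn, hM⟩ := nodal_translate v (E⁄K) (algebraMap ℚ K s) (algebraMap ℚ K d)
      (algebraMap ℚ K b) (algebraMap ℚ K e) n ⟨hb₂, hb₄, hb₆⟩ h2 hvb hvd hve he0' hodd X hX0 hX hξ
    have hfix : ∀ r : ℚ, (σ : K →+* K) (algebraMap ℚ K r) = algebraMap ℚ K r :=
      fun r => σ.commutes r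
    obtain ⟨x, y, h, hx, hσx, hσy⟩ := exists_fixed_point_with_xi v (E⁄K) hΔ
      (algebraMap ℚ K s) (algebraMap ℚ K d) (algebraMap ℚ K b) (algebraMap ℚ K e)
      hb₂ hb₄ hb₆ h2 hvb hvd hve he0' (σ : K →+* K) hσ
      (hfix _) (hfix _) (hfix s) (hfix e) (by rw [← map_pow]; exact hfix _) (hfix b) hM0 hMn
    refine ⟨Point.some x y h, ?_, ?_⟩
    · rw [Point.map_some]
      congr 1
    · exact hM (Point.some x y h) (Point.some_ne_zero h) hx

end Assembly

section Frey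

open ValuationSubring Fermat.Agent.FreyLib

/-- The base change of the Frey curve to a field of characteristic zero has nonzero
discriminant. -/
theorem frey_Δ_ne_zero {K : Type*} [Field K] [Algebra ℚ K] [CharZero K] (P : FreyPackage) :
    (P.freyCurve⁄K).Δ ≠ 0 := by
  change (WeierstrassCurve.baseChange P.freyCurve K).Δ ≠ 0
  rw [frey_baseChange_eq (K := K) P, map_Δ, eq_intCast]
  exact Int.cast_ne_zero.mpr (freyCurveInt_Δ_ne_zero P)

/-- The Frey curve is `GoodOrNodal` at every valuation over an odd prime `q` (`q = p` allowed). -/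
theorem frey_goodOrNodal {K : Type*} [Field K] [DecidableEq K] [Algebra ℚ K] [IsAlgClosed K]
    [CharZero K] {Γ₀ : Type*} [LinearOrderedCommGroupWithZero Γ₀]
    (P : FreyPackage) (v : Valuation K Γ₀) {q : ℕ} (hq : q.Prime) (hq2 : q ≠ 2)
    (hvq : v (q : K) < 1) : GoodOrNodal v P.freyCurve P.p := by
  by_cases hd : (q : ℤ) ∣ P.a * P.b * P.c
  · exact Or.inr (frey_nodal P v hq hq2 hvq hd)
  · exact Or.inl (frey_good P v hq hq2 hvq hd)

/-- (Np)(c), valuation form: at a valuation over an odd prime `q` (possibly `q = p`), an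
automorphism acting trivially modulo the maximal ideal moves every `p`-torsion point of the Frey
curve inside the kernel of reduction. -/
theorem frey_inG1_map_sub {K : Type*} [Field K] [DecidableEq K] [Algebra ℚ K] [IsAlgClosed K]
    [CharZero K] {Γ₀ : Type*} [LinearOrderedCommGroupWithZero Γ₀]
    (P : FreyPackage) (v : Valuation K Γ₀) {q : ℕ} (hq : q.Prime) (hq2 : q ≠ 2)
    (hvq : v (q : K) < 1)
    (σ : K →ₐ[ℚ] K) (hσ : ∀ a : K, v a ≤ 1 → v (σ a - a) < 1)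
    (hσ' : ∀ a : K, 1 < v a → 1 < v (σ a))
    (X : (P.freyCurve⁄K).Point) (hX : P.p • X = 0) : InG1 v (Point.map σ X - X) := by
  obtain ⟨ha₁, ha₂, ha₃, ha₄, ha₆⟩ := frey_coeff_integral (K := K) P v
  exact inG1_map_sub_of_goodOrNodal v P.freyCurve ha₁ ha₂ ha₃ ha₄ ha₆ (frey_Δ_ne_zero P)
    P.hp_odd (v_two_eq_one v hq hvq hq2) (frey_goodOrNodal P v hq hq2 hvq) σ hσ hσ' X hX

/-- Inertia elements act trivially modulo the maximal ideal (valuation form). -/
theorem inertia_v_sub_lt_one {K L : Type*} [Field K] [Field L] [Algebra K L]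
    (A : ValuationSubring L) (σ : L ≃ₐ[K] L) (hσ : σ ∈ A.inertiaSubgroupIn K)
    (a : L) (ha : A.valuation a ≤ 1) : A.valuation (σ a - a) < 1 := by
  have ha' : a ∈ A := (A.valuation_le_one_iff a).mp ha
  exact A.mem_nonunits_iff.mp (inertiaIn_sub_mem_nonunits A σ hσ ha')

/-- Inertia elements preserve the complement of the valuation ring (valuation form). -/
theorem inertia_one_lt_v {K L : Type*} [Field K] [Field L] [Algebra K L]
    (A : ValuationSubring L) (σ : L ≃ₐ[K] L) (hσ : σ ∈ A.inertiaSubgroupIn K)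
    (a : L) (ha : 1 < A.valuation a) : 1 < A.valuation (σ a) := by
  rw [← not_le, A.valuation_le_one_iff] at ha ⊢
  exact fun h => ha ((inertiaIn_apply_mem_iff A σ hσ).mp h)

/-- **(Np)(c)**: for a valuation subring `A` of `ℚ̄` over ANY odd prime `q` (in particular
`q = p`), an element `σ` of the inertia group of `A` moves every `p`-torsion point `X` of the Frey
curve inside the kernel of reduction: `σ X - X ∈ G₁(A)`. -/
theorem frey_map_sub_inG1_of_odd (P : FreyPackage) {q : ℕ} (hq : q.Prime) (hq2 : q ≠ 2)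
    (A : ValuationSubring (AlgebraicClosure ℚ)) (hA : A.LiesOverPrime q)
    (σ : AlgebraicClosure ℚ ≃ₐ[ℚ] AlgebraicClosure ℚ) (hσ : σ ∈ A.inertiaSubgroupIn ℚ)
    (X : (P.freyCurve⁄(AlgebraicClosure ℚ)).Point) (hX : P.p • X = 0) :
    InG1 A.valuation (σ • X - X) := by
  have hvq : A.valuation ((q : ℕ) : AlgebraicClosure ℚ) < 1 := by
    have : ((q : ℕ) : AlgebraicClosure ℚ) ∈ A.nonunits := hA
    exact A.mem_nonunits_iff.mp this
  exact frey_inG1_map_sub P A.valuation hq hq2 hvq σ.toAlgHom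
    (fun a ha => inertia_v_sub_lt_one A σ hσ a ha)
    (fun a ha => inertia_one_lt_v A σ hσ a ha) X hX

/-- **(Np)(c)** at `q = p`. -/
theorem frey_map_sub_inG1 (P : FreyPackage)
    (A : ValuationSubring (AlgebraicClosure ℚ)) (hA : A.LiesOverPrime P.p)
    (σ : AlgebraicClosure ℚ ≃ₐ[ℚ] AlgebraicClosure ℚ) (hσ : σ ∈ A.inertiaSubgroupIn ℚ)
    (X : (P.freyCurve⁄(AlgebraicClosure ℚ)).Point) (hX : P.p • X = 0) :
    InG1 A.valuation (σ • X - X) :=
  frey_map_sub_inG1_of_odd P P.pp (by have := P.hp5; omega) A hA σ hσ X hX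

end Frey

end Fermat.Agent.S13NpC
end MergeWrap_S13_NpC

section MergeWrap_S13_AtPSub -- from S13/AtPSub.lean

set_option autoImplicit false

namespace Fermat.Agent.S13AtP

open WeierstrassCurve WeierstrassCurve.Affine WeierstrassCurve.Affine.Point

/-- The points of `E[p]` in the kernel of reduction at `A`, as an additive subgroup. -/
noncomputable def kerRedAddSubgroup (P : FreyPackage) (A : ValuationSubring (AlgebraicClosure ℚ)) :
    AddSubgroup (Submodule.torsionBy ℤ (P.freyCurve⁄(AlgebraicClosure ℚ)).Point P.p) where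
  carrier := {x | S05H75.InG1 A.valuation (x : (P.freyCurve⁄(AlgebraicClosure ℚ)).Point)}
  zero_mem' := Or.inl rfl
  add_mem' := by
    intro x y hx hy
    obtain ⟨ha₁, ha₂, ha₃, ha₄, ha₆⟩ :=
      S05H75.frey_coeff_integral (K := AlgebraicClosure ℚ) P A.valuation
    obtain ⟨hb₂, hb₄, hb₆, hb₈⟩ := S05H5.v_b_le_one A.valuation
      (P.freyCurve⁄(AlgebraicClosure ℚ)) ha₁ ha₂ ha₃ ha₄ ha₆
    exact S05H75.inG1_add A.valuation hb₂ hb₄ hb₆ hb₈ hx hy
  neg_mem' := by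
    intro x hx
    exact S05H75.inG1_neg A.valuation hx

/-- The points of `E[p]` in the kernel of reduction at `A`, as a `ZMod p`-submodule. -/
noncomputable def kerRed (P : FreyPackage) (A : ValuationSubring (AlgebraicClosure ℚ)) :
    Submodule (ZMod P.p) (Submodule.torsionBy ℤ (P.freyCurve⁄(AlgebraicClosure ℚ)).Point P.p) :=
  AddSubgroup.toZModSubmodule P.p (kerRedAddSubgroup P A)

theorem mem_kerRed (P : FreyPackage) (A : ValuationSubring (AlgebraicClosure ℚ))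
    (x : Submodule.torsionBy ℤ (P.freyCurve⁄(AlgebraicClosure ℚ)).Point P.p) :
    x ∈ kerRed P A ↔ S05H75.InG1 A.valuation (x : (P.freyCurve⁄(AlgebraicClosure ℚ)).Point) :=
  Iff.rfl

/-- The local dichotomy at `p`, from the cardinality of `E[p]` and the existence of a point of
`E[p]` outside the kernel of reduction. -/
theorem frey_inertia_p_dichotomy_of (P : FreyPackage)
    (hcard : Nat.card (Submodule.torsionBy ℤ (P.freyCurve⁄(AlgebraicClosure ℚ)).Point P.p)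
      = P.p ^ 2)
    (N : Submodule (ZMod P.p) (Submodule.torsionBy ℤ (P.freyCurve⁄(AlgebraicClosure ℚ)).Point P.p))
    (hN : IsGaloisStable ℚ N) (hbot : N ≠ ⊥) (htop : N ≠ ⊤)
    (A : ValuationSubring (AlgebraicClosure ℚ)) (hA : A.LiesOverPrime P.p)
    (hb : ∃ x : Submodule.torsionBy ℤ (P.freyCurve⁄(AlgebraicClosure ℚ)).Point P.p,
      ¬ S05H75.InG1 A.valuation (x : (P.freyCurve⁄(AlgebraicClosure ℚ)).Point)) :
    (∀ σ ∈ A.inertiaSubgroupIn ℚ,
      ∀ x : Submodule.torsionBy ℤ (P.freyCurve⁄(AlgebraicClosure ℚ)).Point P.p, σ • x - x ∈ N) ∨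
    (∀ σ ∈ A.inertiaSubgroupIn ℚ, ∀ x ∈ N, σ • x = x) := by
  have : Fact P.p.Prime := ⟨P.pp⟩
  have hL : kerRed P A ≠ ⊤ := by
    obtain ⟨x, hx⟩ := hb
    intro h
    exact hx ((mem_kerRed P A x).mp (h ▸ Submodule.mem_top))
  refine dichotomy (p := P.p) (A.inertiaSubgroupIn ℚ : Set _) hcard N (kerRed P A) hbot htop hL
    (fun σ _ x hx => hN σ x hx) ?_
  intro σ hσ x
  rw [mem_kerRed]
  have hX : P.p • (x : (P.freyCurve⁄(AlgebraicClosure ℚ)).Point) = 0 := by
    have h1 : ((P.p : ℕ) : ℤ) • (x : (P.freyCurve⁄(AlgebraicClosure ℚ)).Point) = 0 :=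
      (Submodule.mem_torsionBy_iff _ _).mp x.2
    rwa [natCast_zsmul] at h1
  exact Fermat.Agent.S13NpC.frey_map_sub_inG1 P A hA σ hσ x.1 hX

end Fermat.Agent.S13AtP
end MergeWrap_S13_AtPSub

section MergeWrap_S13_LpGlue -- from S13/LpGlue.lean

set_option autoImplicit false

namespace Fermat.Agent.S13Budget

open Polynomial WeierstrassCurve WeierstrassCurve.Affine S05H65 S05H75 Fermat.Agent.Torsion

local notation "Qb" => AlgebraicClosure ℚ

variable (P : FreyPackage)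

/-- The ladder polynomial `G_p` of the integral Frey model, over `Qb`. -/
noncomputable def freyLadG : Polynomial Qb :=
  (ladG P.freyCurveInt P.p).map (Int.castRingHom Qb)

lemma freyLadG_eq : freyLadG P = ladG (P.freyCurve⁄Qb) P.p := by
  have hp1 : 1 ≤ P.p := by have := P.hp5; omega
  rw [freyLadG, (map_lad P.freyCurveInt (Int.castRingHom Qb) P.p hp1).2]
  congr 1
  exact (frey_baseChange_eq (K := Qb) P).symm

lemma freyLadG_coeff_le {Γ₀ : Type*} [LinearOrderedCommGroupWithZero Γ₀] (v : Valuation Qb Γ₀)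
    (n : ℕ) : v ((freyLadG P).coeff n) ≤ 1 := by
  rw [freyLadG, coeff_map, eq_intCast]
  exact S05H5.vle_intCast v _

lemma freyLadG_leadingCoeff :
    (freyLadG P).leadingCoeff = ((P.p ^ 2 * ladLead P.p : ℕ) : Qb) := by
  have hp1 : 1 ≤ P.p := by have := P.hp5; omega
  rw [freyLadG_eq]
  exact (natDegree_ladG (P.freyCurve⁄Qb) P.p hp1).2

lemma freyLadG_ne_zero : freyLadG P ≠ 0 := by
  have hp1 : 1 ≤ P.p := by have := P.hp5; omega
  rw [freyLadG_eq]
  exact ladG_ne_zero (P.freyCurve⁄Qb) P.p hp1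

lemma v_freyLadG_leadingCoeff {Γ₀ : Type*} [LinearOrderedCommGroupWithZero Γ₀]
    (v : Valuation Qb Γ₀) (hvp : v (P.p : Qb) < 1) :
    v (freyLadG P).leadingCoeff = v (P.p : Qb) ^ 2 := by
  rw [freyLadG_leadingCoeff]
  push_cast
  rw [map_mul, map_pow, S05H5.v_natCast_eq_one v P.pp hvp (not_dvd_ladLead_self P.pp), mul_one]

/-- `x`-coordinates of nonzero `p`-torsion points are double roots of `freyLadG`. -/
lemma sq_dvd_freyLadG {X : (P.freyCurve⁄Qb).Point} (hX0 : X ≠ 0) (hX : P.p • X = 0) :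
    (Polynomial.X - C (px X)) ^ 2 ∣ freyLadG P := by
  rw [freyLadG_eq]
  obtain ⟨k, hk⟩ : ∃ k, P.p = k + 3 := ⟨P.p - 3, by have := P.hp5; omega⟩
  rw [hk] at hX ⊢
  exact sq_dvd_ladG_of_smul_eq_zero hX0 k hX

/-- The `x`-coordinate is Galois-equivariant. -/
lemma px_algEquiv_smul (σ : Qb ≃ₐ[ℚ] Qb) (X : (P.freyCurve⁄Qb).Point) :
    px (σ • X) = σ (px X) := by
  rcases X with _ | ⟨x, y, h⟩
  · show (0 : Qb) = σ 0
    rw [map_zero]
  · rfl

lemma algEquiv_smul_ne_zero (σ : Qb ≃ₐ[ℚ] Qb) {X : (P.freyCurve⁄Qb).Point} (hX : X ≠ 0) :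
    σ • X ≠ 0 := by
  intro h
  apply hX
  have := congrArg (fun Y => σ⁻¹ • Y) h
  simp only [inv_smul_smul] at this
  exact this

theorem isGalois_Qb_rat : IsGalois ℚ Qb := by
  have : Algebra.IsAlgebraic ℚ Qb := AlgebraicClosure.isAlgebraic ℚ
  have : IsAlgClosure ℚ Qb := ⟨inferInstance, inferInstance⟩
  infer_instance

/-- **(L_p), supersingular exclusion.** In the presence of a Galois-stable line, not all
`p`-torsion points of the Frey curve lie in the kernel of reduction at a place over `p`. -/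
theorem frey_exists_not_inG1 (P : FreyPackage)
    (N : Submodule (ZMod P.p) (Submodule.torsionBy ℤ (P.freyCurve⁄Qb).Point P.p))
    (hN : WeierstrassCurve.Affine.Point.IsGaloisStable ℚ N) (hbot : N ≠ ⊥) (htop : N ≠ ⊤)
    (A : ValuationSubring Qb) (hA : A.LiesOverPrime P.p) :
    ∃ x : Submodule.torsionBy ℤ (P.freyCurve⁄Qb).Point P.p,
      ¬ S05H75.InG1 A.valuation (x : (P.freyCurve⁄Qb).Point) := by
  classical
  by_contra hall
  push Not at hall
  have hvp : A.valuation (P.p : Qb) < 1 := hA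
  -- torsion in ℕ-form
  have htors : ∀ X : Submodule.torsionBy ℤ (P.freyCurve⁄Qb).Point P.p,
      P.p • (X : (P.freyCurve⁄Qb).Point) = 0 := by
    intro X
    have := (Submodule.mem_torsionBy_iff _ _).mp X.2
    rwa [natCast_zsmul] at this
  have hcoe_ne : ∀ X : Submodule.torsionBy ℤ (P.freyCurve⁄Qb).Point P.p, X ≠ 0 →
      (X : (P.freyCurve⁄Qb).Point) ≠ 0 := by
    intro X hX h
    exact hX (Subtype.ext h)
  have hroot : ∀ X : Submodule.torsionBy ℤ (P.freyCurve⁄Qb).Point P.p, X ≠ 0 →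
      px (X : (P.freyCurve⁄Qb).Point) ∈ (freyLadG P).roots.toFinset := by
    intro X hX
    rw [Multiset.mem_toFinset, mem_roots (freyLadG_ne_zero P)]
    have h1 := sq_dvd_freyLadG P (hcoe_ne X hX) (htors X)
    exact dvd_iff_isRoot.mp ((dvd_pow_self _ two_ne_zero).trans h1)
  set T : Finset Qb := (freyLadG P).roots.toFinset.filter
    (fun x => ∃ X : Submodule.torsionBy ℤ (P.freyCurve⁄Qb).Point P.p,
      X ≠ 0 ∧ px (X : (P.freyCurve⁄Qb).Point) = x) with hTdef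
  set TN : Finset Qb := (freyLadG P).roots.toFinset.filter
    (fun x => ∃ X : Submodule.torsionBy ℤ (P.freyCurve⁄Qb).Point P.p,
      X ∈ N ∧ X ≠ 0 ∧ px (X : (P.freyCurve⁄Qb).Point) = x) with hTNdef
  have hmemT : ∀ x, x ∈ T ↔ ∃ X : Submodule.torsionBy ℤ (P.freyCurve⁄Qb).Point P.p,
      X ≠ 0 ∧ px (X : (P.freyCurve⁄Qb).Point) = x := by
    intro x
    rw [hTdef, Finset.mem_filter]
    constructor
    · exact fun h => h.2
    · rintro ⟨X, hX, rfl⟩
      exact ⟨hroot X hX, X, hX, rfl⟩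
  have hmemTN : ∀ x, x ∈ TN ↔ ∃ X : Submodule.torsionBy ℤ (P.freyCurve⁄Qb).Point P.p,
      X ∈ N ∧ X ≠ 0 ∧ px (X : (P.freyCurve⁄Qb).Point) = x := by
    intro x
    rw [hTNdef, Finset.mem_filter]
    constructor
    · exact fun h => h.2
    · rintro ⟨X, hXN, hX, rfl⟩
      exact ⟨hroot X hX, X, hXN, hX, rfl⟩
  -- the hypotheses of `budget_contra`
  have hsub : TN ⊆ T := by
    intro x hx
    obtain ⟨X, -, hX, rfl⟩ := (hmemTN x).mp hx
    exact (hmemT _).mpr ⟨X, hX, rfl⟩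
  have hne : TN.Nonempty := by
    obtain ⟨X, hXN, hX⟩ := Submodule.exists_mem_ne_zero_of_ne_bot hbot
    exact ⟨_, (hmemTN _).mpr ⟨X, hXN, hX, rfl⟩⟩
  have hprop : ∃ x ∈ T, x ∉ TN := by
    obtain ⟨X₀, hX₀⟩ : ∃ X₀ : Submodule.torsionBy ℤ (P.freyCurve⁄Qb).Point P.p, X₀ ∉ N := by
      by_contra h
      push Not at h
      exact htop ((Submodule.eq_top_iff').mpr h)
    have hX₀0 : X₀ ≠ 0 := by
      rintro rfl
      exact hX₀ N.zero_mem
    refine ⟨px (X₀ : (P.freyCurve⁄Qb).Point), (hmemT _).mpr ⟨X₀, hX₀0, rfl⟩, ?_⟩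
    intro hmem
    obtain ⟨Y, hYN, hY0, hYX⟩ := (hmemTN _).mp hmem
    rcases eq_or_eq_neg_of_px_eq (hcoe_ne Y hY0) (hcoe_ne X₀ hX₀0) hYX with h | h
    · have : Y = X₀ := Subtype.ext h
      exact hX₀ (this ▸ hYN)
    · have : X₀ = -Y := by
        apply Subtype.ext
        show (X₀ : (P.freyCurve⁄Qb).Point) = -(Y : (P.freyCurve⁄Qb).Point)
        rw [h, neg_neg]
      exact hX₀ (this ▸ N.neg_mem hYN)
  have hT : ∀ x ∈ T, 1 < A.valuation x := by
    intro x hx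
    obtain ⟨X, hX, rfl⟩ := (hmemT x).mp hx
    rcases hall X with h | h
    · exact absurd h (hcoe_ne X hX)
    · exact h
  have hdvd : (∏ x ∈ T, (Polynomial.X - C x) ^ 2) ∣ freyLadG P := by
    apply Finset.prod_dvd_of_coprime
    · intro x _ y _ hxy
      exact (isCoprime_X_sub_C_of_isUnit_sub (sub_ne_zero_of_ne hxy).isUnit).pow
    · intro x hx
      obtain ⟨X, hX, rfl⟩ := (hmemT x).mp hx
      exact sq_dvd_freyLadG P (hcoe_ne X hX) (htors X)
  have hrat : ∃ r : ℚ, (r : Qb) = ∏ x ∈ TN, x := by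
    have : IsGalois ℚ Qb := isGalois_Qb_rat
    obtain ⟨r, hr⟩ := prod_mem_range_of_stable (k := ℚ) (L := Qb) TN (by
      intro σ x hx
      obtain ⟨X, hXN, hX, rfl⟩ := (hmemTN x).mp hx
      refine (hmemTN _).mpr ⟨σ • X, hN σ X hXN, ?_, ?_⟩
      · intro h
        have h' : σ • (X : (P.freyCurve⁄Qb).Point) = 0 := congrArg Subtype.val h
        exact algEquiv_smul_ne_zero P σ (hcoe_ne X hX) h'
      · exact px_algEquiv_smul P σ _)
    exact ⟨r, by rw [← hr, eq_ratCast]⟩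
  exact budget_contra A.valuation P.pp hvp (freyLadG P) (freyLadG_coeff_le P A.valuation)
    (v_freyLadG_leadingCoeff P A.valuation hvp) T TN hsub hne hprop hT hdvd hrat

end Fermat.Agent.S13Budget
end MergeWrap_S13_LpGlue

section MergeWrap_S13_AtP -- from S13/AtP.lean

set_option autoImplicit false

namespace Fermat.Agent.S13AtP

open WeierstrassCurve WeierstrassCurve.Affine WeierstrassCurve.Affine.Point

/-- **(Np)**: the local dichotomy at `p`. -/
theorem frey_inertia_p_dichotomy (P : FreyPackage)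
    (hcard : Nat.card (Submodule.torsionBy ℤ (P.freyCurve⁄(AlgebraicClosure ℚ)).Point P.p)
      = P.p ^ 2)
    (N : Submodule (ZMod P.p) (Submodule.torsionBy ℤ (P.freyCurve⁄(AlgebraicClosure ℚ)).Point P.p))
    (hN : IsGaloisStable ℚ N) (hbot : N ≠ ⊥) (htop : N ≠ ⊤)
    (A : ValuationSubring (AlgebraicClosure ℚ)) (hA : A.LiesOverPrime P.p) :
    (∀ σ ∈ A.inertiaSubgroupIn ℚ,
      ∀ x : Submodule.torsionBy ℤ (P.freyCurve⁄(AlgebraicClosure ℚ)).Point P.p, σ • x - x ∈ N) ∨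
    (∀ σ ∈ A.inertiaSubgroupIn ℚ, ∀ x ∈ N, σ • x = x) :=
  frey_inertia_p_dichotomy_of P hcard N hN hbot htop A hA
    (Fermat.Agent.S13Budget.frey_exists_not_inG1 P N hN hbot htop A hA)

end Fermat.Agent.S13AtP
end MergeWrap_S13_AtP
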